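import Mathlib

namespace Fermat.Agent.S53.Lim

open IsLocalRing

section OneVar

variable {A : Type*} [CommRing A] [IsLocalRing A]

lemma ps_mem_maximalIdeal_iff (f : PowerSeries A) :
    f ∈ maximalIdeal (PowerSeries A) ↔ PowerSeries.constantCoeff f ∈ maximalIdeal A := by
  rw [mem_maximalIdeal, mem_nonunits_iff, PowerSeries.isUnit_iff_constantCoeff, mem_maximalIdeal,
    mem_nonunits_iff]

lemma ps_coeff_mem_of_mem_pow (n : ℕ) {f : PowerSeries A}
    (hf : f ∈ maximalIdeal (PowerSeries A) ^ n) (j : ℕ) :
    PowerSeries.coeff j f ∈ maximalIdeal A ^ (n - j) := by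
  induction n generalizing f j with
  | zero => simp
  | succ n ih =>
    rw [pow_succ] at hf
    refine Submodule.mul_induction_on hf ?_ ?_
    · intro g hg h hh
      rw [PowerSeries.coeff_mul]
      refine Ideal.sum_mem _ ?_
      rintro ⟨a, b⟩ hab
      have hab := Finset.HasAntidiagonal.mem_antidiagonal.mp hab
      simp only at hab ⊢
      by_cases hb : b = 0
      · subst hb
        have ha : a = j := by omega
        subst ha
        have h1 := ih hg a
        have h2 : PowerSeries.coeff 0 h ∈ maximalIdeal A := by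
          rw [PowerSeries.coeff_zero_eq_constantCoeff_apply]
          exact (ps_mem_maximalIdeal_iff h).1 hh
        have h3 := Ideal.mul_mem_mul h1 h2
        rw [← pow_succ] at h3
        exact Ideal.pow_le_pow_right (by omega) h3
      · have h1 := ih hg a
        exact Ideal.mul_mem_right _ _ (Ideal.pow_le_pow_right (by omega) h1)
    · intro x y hx hy
      rw [map_add]
      exact Ideal.add_mem _ hx hy

lemma ps_C_mem_pow (n : ℕ) {c : A} (hc : c ∈ maximalIdeal A ^ n) :
    PowerSeries.C c ∈ maximalIdeal (PowerSeries A) ^ n := by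
  have h1 : Ideal.map (PowerSeries.C (R := A)) (maximalIdeal A) ≤ maximalIdeal (PowerSeries A) := by
    rw [Ideal.map_le_iff_le_comap]
    intro x hx
    rw [Ideal.mem_comap, ps_mem_maximalIdeal_iff]
    simpa using hx
  have h2 := Ideal.mem_map_of_mem (PowerSeries.C (R := A)) hc
  rw [Ideal.map_pow] at h2
  exact Ideal.pow_right_mono h1 n h2

lemma ps_X_mem : (PowerSeries.X : PowerSeries A) ∈ maximalIdeal (PowerSeries A) := by
  rw [ps_mem_maximalIdeal_iff]
  simp

lemma ps_mem_pow_of_coeff_mem (n : ℕ) {f : PowerSeries A}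
    (hf : ∀ j < n, PowerSeries.coeff j f ∈ maximalIdeal A ^ (n - j)) :
    f ∈ maximalIdeal (PowerSeries A) ^ n := by
  induction n generalizing f with
  | zero => simp
  | succ n ih =>
    rw [PowerSeries.eq_X_mul_shift_add_const f]
    refine Ideal.add_mem _ ?_ ?_
    · rw [pow_succ']
      refine Ideal.mul_mem_mul ps_X_mem (ih ?_)
      intro j hj
      rw [PowerSeries.coeff_mk]
      have := hf (j + 1) (by omega)
      rwa [show n + 1 - (j + 1) = n - j by omega] at this
    · apply ps_C_mem_pow
      have := hf 0 (by omega)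
      simpa using this

theorem ps_isPrecomplete [IsPrecomplete (maximalIdeal A) A] :
    IsPrecomplete (maximalIdeal (PowerSeries A)) (PowerSeries A) := by
  constructor
  intro f hf
  have hc : ∀ j : ℕ, ∃ L : A, ∀ n : ℕ, PowerSeries.coeff j (f (n + j)) ≡ L
      [SMOD (maximalIdeal A ^ n • ⊤ : Submodule A A)] := by
    intro j
    apply IsPrecomplete.prec' (I := maximalIdeal A)
    intro m n hmn
    rw [SModEq.sub_mem, smul_eq_mul, Ideal.mul_top, ← map_sub]
    have := hf (show m + j ≤ n + j by omega)
    rw [SModEq.sub_mem, smul_eq_mul, Ideal.mul_top] at this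
    have h2 := ps_coeff_mem_of_mem_pow (m + j) this j
    simpa using h2
  choose L hL using hc
  refine ⟨PowerSeries.mk L, fun n => ?_⟩
  rw [SModEq.sub_mem, smul_eq_mul, Ideal.mul_top]
  apply ps_mem_pow_of_coeff_mem
  intro j hj
  rw [map_sub, PowerSeries.coeff_mk]
  have := hL j (n - j)
  rw [SModEq.sub_mem, smul_eq_mul, Ideal.mul_top] at this
  rwa [Nat.sub_add_cancel hj.le] at this

theorem ps_isHausdorff [IsHausdorff (maximalIdeal A) A] :
    IsHausdorff (maximalIdeal (PowerSeries A)) (PowerSeries A) := by
  constructor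
  intro f hf
  ext j
  rw [map_zero]
  apply IsHausdorff.haus' (I := maximalIdeal A)
  intro n
  have := hf (n + j)
  rw [SModEq.sub_mem, sub_zero, smul_eq_mul, Ideal.mul_top] at this ⊢
  simpa using ps_coeff_mem_of_mem_pow (n + j) this j

theorem ps_isAdicComplete [IsAdicComplete (maximalIdeal A) A] :
    IsAdicComplete (maximalIdeal (PowerSeries A)) (PowerSeries A) :=
  { toIsHausdorff := ps_isHausdorff
    toIsPrecomplete := ps_isPrecomplete }

end OneVar

lemma map_maximalIdeal_ringEquiv {R S : Type*} [CommRing R] [CommRing S] [IsLocalRing R]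
    [IsLocalRing S] (e : R ≃+* S) : Ideal.map e (maximalIdeal R) = maximalIdeal S := by
  ext x
  rw [← Ideal.comap_symm, Ideal.mem_comap, mem_maximalIdeal, mem_maximalIdeal, mem_nonunits_iff,
    mem_nonunits_iff, MulEquiv.isUnit_map]

theorem mvps_isAdicComplete (A : Type*) [CommRing A] [IsLocalRing A]
    [IsAdicComplete (maximalIdeal A) A] (d : ℕ) :
    IsAdicComplete (maximalIdeal (MvPowerSeries (Fin d) A)) (MvPowerSeries (Fin d) A) := by
  induction d with
  | zero =>
    have e := (MvPowerSeries.isEmptyEquiv (Fin 0) A).toRingEquiv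
    refine (IsAdicComplete.congr_ringEquiv (maximalIdeal _) e).mp ?_
    rw [map_maximalIdeal_ringEquiv]
    infer_instance
  | succ d ih =>
    have e := (MvPowerSeries.finSuccEquiv A d).toRingEquiv
    refine (IsAdicComplete.congr_ringEquiv (maximalIdeal _) e).mp ?_
    rw [map_maximalIdeal_ringEquiv]
    have := ih
    exact ps_isAdicComplete

end Fermat.Agent.S53.Lim
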