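import Mathlib

namespace Fermat.Agent.S53.Lim

theorem inf_sup_pow_eq {P : Type*} [CommRing P] (𝔪 : Ideal P) [IsPrecomplete 𝔪 P]
    (J : ℕ → Ideal P) (hpow : ∀ n, 𝔪 ^ n ≤ J n) (hanti : ∀ n, J (n + 1) ≤ J n)
    (hstep : ∀ n, J n ≤ J (n + 1) ⊔ 𝔪 ^ n) (n : ℕ) :
    J n = (⨅ m, J m) ⊔ 𝔪 ^ n := by
  have hantitone : ∀ a b, a ≤ b → J b ≤ J a := by
    intro a b hab
    induction hab with
    | refl => exact le_rfl
    | step _ ih => exact (hanti _).trans ih
  apply le_antisymm
  · intro f hf
    have key : ∀ (m : ℕ) (g : P), f - g ∈ J (n + m) →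
        ∃ b, b ∈ 𝔪 ^ (n + m) ∧ f - (g + b) ∈ J (n + m + 1) := by
      intro m g hg
      obtain ⟨a, ha, b, hb, hab⟩ := Submodule.mem_sup.mp (hstep (n + m) hg)
      refine ⟨b, hb, ?_⟩
      have : f - (g + b) = a := by linear_combination -hab
      rw [this]; exact ha
    choose! b hb1 hb2 using key
    let G : ℕ → P := fun m => Nat.rec 0 (fun m g => g + b m g) m
    have hG0 : G 0 = 0 := rfl
    have hGs : ∀ m, G (m + 1) = G m + b m (G m) := fun m => rfl
    have hG : ∀ m, f - G m ∈ J (n + m) := by
      intro m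
      induction m with
      | zero => simpa [hG0] using hf
      | succ m ih => rw [hGs]; exact hb2 m (G m) ih
    have hdiff : ∀ m m', m ≤ m' → G m' - G m ∈ 𝔪 ^ (n + m) := by
      intro m m' hmm'
      induction m', hmm' using Nat.le_induction with
      | base => simp
      | succ k hk ih =>
        have h1 : G (k + 1) - G m = (G k - G m) + b k (G k) := by rw [hGs]; ring
        rw [h1]
        refine Ideal.add_mem _ ih ?_
        exact Ideal.pow_le_pow_right (by omega) (hb1 k (G k) (hG k))
    have hGmem : ∀ m, G m ∈ 𝔪 ^ n := by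
      intro m
      have := hdiff 0 m (Nat.zero_le m)
      simpa [hG0] using this
    obtain ⟨g, hg⟩ := IsPrecomplete.prec' (I := 𝔪) (fun i => G (i - n)) (by
      intro i i' hii'
      rw [SModEq.sub_mem, smul_eq_mul, Ideal.mul_top]
      by_cases hin : n ≤ i
      · have := hdiff (i - n) (i' - n) (by omega)
        rw [show n + (i - n) = i by omega] at this
        rw [← neg_sub]
        exact neg_mem this
      · have h1 : i - n = 0 := by omega
        rw [h1, hG0, zero_sub]
        exact neg_mem (Ideal.pow_le_pow_right (by omega) (hGmem _)))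
    have hg' : ∀ i, G (i - n) - g ∈ 𝔪 ^ i := by
      intro i
      have := hg i
      rwa [SModEq.sub_mem, smul_eq_mul, Ideal.mul_top] at this
    have hgn : g ∈ 𝔪 ^ n := by
      have := hg' n
      rw [Nat.sub_self, hG0, zero_sub] at this
      simpa using neg_mem this
    have hfg : f - g ∈ ⨅ m, J m := by
      rw [Ideal.mem_iInf]
      intro m
      have h1 : f - g = (f - G m) + (G m - g) := by ring
      rw [h1]
      refine Ideal.add_mem _ (hantitone m (n + m) (by omega) (hG m)) ?_
      have := hg' (n + m)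
      rw [show n + m - n = m by omega] at this
      exact hantitone m (n + m) (by omega) (hpow _ this)
    have : f = (f - g) + g := by ring
    rw [this]
    exact Ideal.add_mem _ (Ideal.mem_sup_left hfg) (Ideal.mem_sup_right hgn)
  · exact sup_le (iInf_le _ n) (hpow n)

end Fermat.Agent.S53.Lim
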