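import Mathlib
import Fermat.Prelude.Thm_IsLocalRing_isAdicComplete_of_module_finite
import Fermat.Agent.S53.Lim.PowerSeries
import Fermat.Agent.S53.Lim.RingLemma

set_option linter.unusedSectionVars false

namespace Fermat.Agent.S53.Lim

open IsLocalRing

section LimitRing

variable (𝒪 : Type) [CommRing 𝒪]
variable {S : Type} [CommRing S] [Algebra 𝒪 S]
variable (I : ℕ → Ideal S) {d : ℕ} (s : Fin d → S)

noncomputable def polyEv (n : ℕ) : MvPolynomial (Fin d) 𝒪 →ₐ[𝒪] S ⧸ I n :=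
  (Ideal.Quotient.mkₐ 𝒪 (I n)).comp (MvPolynomial.aeval s)

structure LimitHyp : Prop where
  max : (I 1).IsMaximal
  res_surj : Function.Surjective (algebraMap 𝒪 (S ⧸ I 1))
  pow_le : ∀ n, I 1 ^ n ≤ I n
  anti : ∀ n, I (n + 1) ≤ I n
  step : ∀ n, I n ≤ I (n + 1) ⊔ I 1 ^ n
  s_mem : ∀ i, s i ∈ I 1
  ev_surj : ∀ n, Function.Surjective (polyEv 𝒪 I s n)

variable {𝒪 I s}

lemma LimitHyp.antitone (h : LimitHyp 𝒪 I s) {m n : ℕ} (hmn : m ≤ n) : I n ≤ I m := by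
  induction hmn with
  | refl => exact le_rfl
  | step _ ih => exact (h.anti _).trans ih

lemma LimitHyp.aeval_mem_pow (h : LimitHyp 𝒪 I s) (n : ℕ) {p : MvPolynomial (Fin d) 𝒪}
    (hp : p ∈ MvPolynomial.idealOfVars (Fin d) 𝒪 ^ n) :
    MvPolynomial.aeval (R := 𝒪) s p ∈ I 1 ^ n := by
  have h1 : MvPolynomial.idealOfVars (Fin d) 𝒪 ≤
      Ideal.comap (MvPolynomial.aeval (R := 𝒪) s) (I 1) := by
    rw [MvPolynomial.idealOfVars, Ideal.span_le]
    rintro _ ⟨i, rfl⟩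
    simpa using h.s_mem i
  exact (Ideal.pow_right_mono h1 n).trans (Ideal.le_comap_pow _ n) hp

lemma LimitHyp.polyEv_eq_zero (h : LimitHyp 𝒪 I s) (n : ℕ) :
    ∀ p ∈ MvPolynomial.idealOfVars (Fin d) 𝒪 ^ n, polyEv 𝒪 I s n p = 0 := by
  intro p hp
  simp only [polyEv, AlgHom.coe_comp, Function.comp_apply, Ideal.Quotient.mkₐ_eq_mk]
  exact Ideal.Quotient.eq_zero_iff_mem.mpr (h.pow_le n (h.aeval_mem_pow n hp))

noncomputable def LimitHyp.evPS (h : LimitHyp 𝒪 I s) (n : ℕ) :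
    MvPowerSeries (Fin d) 𝒪 →ₐ[𝒪] S ⧸ I n :=
  (Ideal.Quotient.liftₐ (MvPolynomial.idealOfVars (Fin d) 𝒪 ^ n) (polyEv 𝒪 I s n)
    (h.polyEv_eq_zero n)).comp
    ((MvPowerSeries.truncTotalAlgHom (Fin d) 𝒪 n).restrictScalars 𝒪)

lemma LimitHyp.evPS_apply (h : LimitHyp 𝒪 I s) (n : ℕ) (f : MvPowerSeries (Fin d) 𝒪) :
    h.evPS n f = Ideal.Quotient.mk (I n)
      (MvPolynomial.aeval (R := 𝒪) s (MvPowerSeries.truncTotal n f)) := by
  rfl

lemma LimitHyp.evPS_factor (h : LimitHyp 𝒪 I s) {m n : ℕ} (hmn : m ≤ n)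
    (f : MvPowerSeries (Fin d) 𝒪) :
    Ideal.Quotient.factor (h.antitone hmn) (h.evPS n f) = h.evPS m f := by
  rw [h.evPS_apply, h.evPS_apply, Ideal.Quotient.factor_mk, Ideal.Quotient.eq, ← map_sub]
  exact h.pow_le m (h.aeval_mem_pow m
    (MvPowerSeries.truncTotal_sub_truncTotal_mem_pow_idealOfVars hmn le_rfl f))

lemma LimitHyp.evPS_coe (h : LimitHyp 𝒪 I s) (n : ℕ) (p : MvPolynomial (Fin d) 𝒪) :
    h.evPS n (p : MvPowerSeries (Fin d) 𝒪) = polyEv 𝒪 I s n p := by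
  rw [h.evPS_apply]
  simp only [polyEv, AlgHom.coe_comp, Function.comp_apply, Ideal.Quotient.mkₐ_eq_mk]
  rw [Ideal.Quotient.eq, ← map_sub]
  refine h.pow_le n (h.aeval_mem_pow n ?_)
  rw [MvPolynomial.mem_pow_idealOfVars_iff']
  intro x hx
  rw [MvPolynomial.coeff_sub, MvPowerSeries.coeff_truncTotal _ hx, MvPolynomial.coeff_coe,
    sub_self]

lemma LimitHyp.evPS_surjective (h : LimitHyp 𝒪 I s) (n : ℕ) :
    Function.Surjective (h.evPS n) := fun y => by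
  obtain ⟨p, rfl⟩ := h.ev_surj n y
  exact ⟨p, h.evPS_coe n p⟩

noncomputable def LimitHyp.J (h : LimitHyp 𝒪 I s) (n : ℕ) : Ideal (MvPowerSeries (Fin d) 𝒪) :=
  RingHom.ker (h.evPS n)

lemma LimitHyp.mem_J (h : LimitHyp 𝒪 I s) (n : ℕ) (f : MvPowerSeries (Fin d) 𝒪) :
    f ∈ h.J n ↔ h.evPS n f = 0 := RingHom.mem_ker

lemma LimitHyp.J_anti (h : LimitHyp 𝒪 I s) (n : ℕ) : h.J (n + 1) ≤ h.J n := by
  intro f hf
  rw [h.mem_J] at hf ⊢
  rw [← h.evPS_factor (Nat.le_succ n), hf, map_zero]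

lemma LimitHyp.evPS_zero_eq (h : LimitHyp 𝒪 I s) (x : S ⧸ I 0) : x = 0 := by
  have h0 : I 0 = ⊤ := top_le_iff.mp (by simpa using h.pow_le 0)
  obtain ⟨y, rfl⟩ := Ideal.Quotient.mk_surjective x
  exact Ideal.Quotient.eq_zero_iff_mem.mpr (h0 ▸ Submodule.mem_top)

section Local

variable [IsLocalRing 𝒪]

lemma LimitHyp.J_one (h : LimitHyp 𝒪 I s) : h.J 1 = maximalIdeal (MvPowerSeries (Fin d) 𝒪) := by
  have := h.max
  let := Ideal.Quotient.field (I 1)
  exact IsLocalRing.eq_maximalIdeal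
    (RingHom.ker_isMaximal_of_surjective (h.evPS 1) (h.evPS_surjective 1))

lemma LimitHyp.map_evPS_maximalIdeal (h : LimitHyp 𝒪 I s) {n : ℕ} (hn : 1 ≤ n) :
    Ideal.map (h.evPS n) (maximalIdeal (MvPowerSeries (Fin d) 𝒪)) =
      Ideal.map (Ideal.Quotient.mk (I n)) (I 1) := by
  apply le_antisymm
  · rw [Ideal.map_le_iff_le_comap]
    intro f hf
    rw [← h.J_one, h.mem_J, ← h.evPS_factor hn, h.evPS_apply, Ideal.Quotient.factor_mk,
      Ideal.Quotient.eq_zero_iff_mem] at hf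
    rw [Ideal.mem_comap, h.evPS_apply]
    exact Ideal.mem_map_of_mem _ hf
  · rw [Ideal.map_le_iff_le_comap]
    intro x hx
    rw [Ideal.mem_comap]
    obtain ⟨f, hf⟩ := h.evPS_surjective n (Ideal.Quotient.mk (I n) x)
    rw [← hf]
    refine Ideal.mem_map_of_mem _ ?_
    rw [← h.J_one, h.mem_J, ← h.evPS_factor hn, hf, Ideal.Quotient.factor_mk]
    exact Ideal.Quotient.eq_zero_iff_mem.mpr hx

lemma LimitHyp.pow_le_J (h : LimitHyp 𝒪 I s) (n : ℕ) :
    maximalIdeal (MvPowerSeries (Fin d) 𝒪) ^ n ≤ h.J n := by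
  intro f hf
  rw [h.mem_J]
  rcases Nat.eq_zero_or_pos n with rfl | hn
  · exact h.evPS_zero_eq _
  · have h1 : h.evPS n f ∈ Ideal.map (h.evPS n) (maximalIdeal (MvPowerSeries (Fin d) 𝒪) ^ n) :=
      Ideal.mem_map_of_mem _ hf
    rw [Ideal.map_pow, h.map_evPS_maximalIdeal hn, ← Ideal.map_pow,
      Ideal.map_mk_eq_bot_of_le (h.pow_le n)] at h1
    simpa using h1

lemma LimitHyp.J_step (h : LimitHyp 𝒪 I s) (n : ℕ) :
    h.J n ≤ h.J (n + 1) ⊔ maximalIdeal (MvPowerSeries (Fin d) 𝒪) ^ n := by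
  intro f hf
  rw [h.mem_J, ← h.evPS_factor (Nat.le_succ n), h.evPS_apply, Ideal.Quotient.factor_mk,
    Ideal.Quotient.eq_zero_iff_mem] at hf
  obtain ⟨a₁, ha₁, a₂, ha₂, ha⟩ := Submodule.mem_sup.mp (h.step n hf)
  have h1 : h.evPS (n + 1) f = Ideal.Quotient.mk (I (n + 1)) a₂ := by
    rw [h.evPS_apply, ← ha, map_add, Ideal.Quotient.eq_zero_iff_mem.mpr ha₁, zero_add]
  have h2 : h.evPS (n + 1) f ∈
      Ideal.map (h.evPS (n + 1)) (maximalIdeal (MvPowerSeries (Fin d) 𝒪) ^ n) := by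
    rw [Ideal.map_pow, h.map_evPS_maximalIdeal (Nat.succ_le_succ (Nat.zero_le n)),
      ← Ideal.map_pow, h1]
    exact Ideal.mem_map_of_mem _ ha₂
  obtain ⟨g, hg, hgf⟩ := (Ideal.mem_map_iff_of_surjective _ (h.evPS_surjective (n + 1))).mp h2
  have h3 : f - g ∈ h.J (n + 1) := by
    rw [h.mem_J, map_sub, hgf, sub_self]
  have : f = (f - g) + g := by ring
  rw [this]
  exact Ideal.add_mem _ (Ideal.mem_sup_left h3) (Ideal.mem_sup_right hg)

end Local

section Complete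

variable [IsLocalRing 𝒪] [IsNoetherianRing 𝒪] [IsAdicComplete (maximalIdeal 𝒪) 𝒪]

noncomputable def LimitHyp.Jinf (h : LimitHyp 𝒪 I s) : Ideal (MvPowerSeries (Fin d) 𝒪) :=
  ⨅ m, h.J m

lemma LimitHyp.J_eq (h : LimitHyp 𝒪 I s) (n : ℕ) :
    h.J n = h.Jinf ⊔ maximalIdeal (MvPowerSeries (Fin d) 𝒪) ^ n := by
  have := mvps_isAdicComplete 𝒪 d
  exact inf_sup_pow_eq (maximalIdeal (MvPowerSeries (Fin d) 𝒪)) h.J h.pow_le_J h.J_anti h.J_step n

lemma LimitHyp.Jinf_le (h : LimitHyp 𝒪 I s) (n : ℕ) : h.Jinf ≤ h.J n := iInf_le _ n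

lemma LimitHyp.Jinf_le_maximalIdeal (h : LimitHyp 𝒪 I s) :
    h.Jinf ≤ maximalIdeal (MvPowerSeries (Fin d) 𝒪) := h.J_one ▸ h.Jinf_le 1

abbrev LimitHyp.Ring (h : LimitHyp 𝒪 I s) : Type := MvPowerSeries (Fin d) 𝒪 ⧸ h.Jinf

instance LimitHyp.instNontrivialRing (h : LimitHyp 𝒪 I s) : Nontrivial h.Ring :=
  Ideal.Quotient.nontrivial_iff.mpr
    (fun htop => (maximalIdeal.isMaximal _).ne_top (top_le_iff.mp (htop ▸ h.Jinf_le_maximalIdeal)))

instance LimitHyp.instIsLocalRing (h : LimitHyp 𝒪 I s) : IsLocalRing h.Ring :=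
  IsLocalRing.of_surjective' (Ideal.Quotient.mk h.Jinf) Ideal.Quotient.mk_surjective

instance LimitHyp.instIsLocalHomMk (h : LimitHyp 𝒪 I s) :
    IsLocalHom (algebraMap (MvPowerSeries (Fin d) 𝒪) h.Ring) :=
  IsLocalHom.of_surjective _ Ideal.Quotient.mk_surjective

instance LimitHyp.instIsAdicComplete (h : LimitHyp 𝒪 I s) :
    IsAdicComplete (maximalIdeal h.Ring) h.Ring := by
  have := mvps_isAdicComplete 𝒪 d
  exact IsLocalRing.isAdicComplete_of_module_finite (𝒪 := MvPowerSeries (Fin d) 𝒪) (T := h.Ring)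

lemma LimitHyp.map_mk_maximalIdeal (h : LimitHyp 𝒪 I s) :
    Ideal.map (Ideal.Quotient.mk h.Jinf) (maximalIdeal (MvPowerSeries (Fin d) 𝒪)) =
      maximalIdeal h.Ring := by
  apply le_antisymm
  · exact IsLocalRing.map_maximalIdeal_le (algebraMap (MvPowerSeries (Fin d) 𝒪) h.Ring)
  · intro x hx
    obtain ⟨f, rfl⟩ := Ideal.Quotient.mk_surjective x
    refine Ideal.mem_map_of_mem _ ?_
    by_contra hf
    have hu : IsUnit f := by
      rwa [mem_maximalIdeal, mem_nonunits_iff, not_not] at hf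
    exact (mem_maximalIdeal _).mp hx (hu.map (Ideal.Quotient.mk h.Jinf))

noncomputable def LimitHyp.π (h : LimitHyp 𝒪 I s) (n : ℕ) : h.Ring →ₐ[𝒪] S ⧸ I n :=
  Ideal.Quotient.liftₐ h.Jinf (h.evPS n) (fun a ha => (h.mem_J n a).mp (h.Jinf_le n ha))

lemma LimitHyp.π_mk (h : LimitHyp 𝒪 I s) (n : ℕ) (f : MvPowerSeries (Fin d) 𝒪) :
    h.π n (Ideal.Quotient.mk h.Jinf f) = h.evPS n f := rfl

lemma LimitHyp.π_surjective (h : LimitHyp 𝒪 I s) (n : ℕ) : Function.Surjective (h.π n) := by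
  intro y
  obtain ⟨f, rfl⟩ := h.evPS_surjective n y
  exact ⟨Ideal.Quotient.mk h.Jinf f, rfl⟩

lemma LimitHyp.π_factor (h : LimitHyp 𝒪 I s) {m n : ℕ} (hmn : m ≤ n) (x : h.Ring) :
    Ideal.Quotient.factor (h.antitone hmn) (h.π n x) = h.π m x := by
  obtain ⟨f, rfl⟩ := Ideal.Quotient.mk_surjective x
  exact h.evPS_factor hmn f

lemma LimitHyp.ker_π (h : LimitHyp 𝒪 I s) (n : ℕ) :
    RingHom.ker (h.π n) = maximalIdeal h.Ring ^ n := by
  ext x
  obtain ⟨f, rfl⟩ := Ideal.Quotient.mk_surjective x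
  rw [RingHom.mem_ker, h.π_mk, ← h.mem_J, h.J_eq, ← h.map_mk_maximalIdeal, ← Ideal.map_pow]
  constructor
  · intro hf
    obtain ⟨a, ha, b, hb, rfl⟩ := Submodule.mem_sup.mp hf
    rw [map_add, Ideal.Quotient.eq_zero_iff_mem.mpr ha, zero_add]
    exact Ideal.mem_map_of_mem _ hb
  · intro hf
    obtain ⟨g, hg, hgf⟩ := (Ideal.mem_map_iff_of_surjective _ Ideal.Quotient.mk_surjective).mp hf
    have h1 : f - g ∈ h.Jinf := by
      rw [← Ideal.Quotient.eq_zero_iff_mem, map_sub, hgf, sub_self]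
    have : f = (f - g) + g := by ring
    rw [this]
    exact Ideal.add_mem _ (Ideal.mem_sup_left h1) (Ideal.mem_sup_right hg)

lemma LimitHyp.ker_algebraMap_one (h : LimitHyp 𝒪 I s) :
    RingHom.ker (algebraMap 𝒪 (S ⧸ I 1)) = maximalIdeal 𝒪 := by
  have := h.max
  let := Ideal.Quotient.field (I 1)
  exact IsLocalRing.eq_maximalIdeal (RingHom.ker_isMaximal_of_surjective _ h.res_surj)

instance LimitHyp.instIsLocalHomAlgebraMap (h : LimitHyp 𝒪 I s) :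
    IsLocalHom (algebraMap 𝒪 h.Ring) := by
  constructor
  intro c hc
  by_contra hcu
  have h1 : IsUnit (algebraMap 𝒪 (S ⧸ I 1) c) := by
    have := hc.map (h.π 1)
    rwa [AlgHom.commutes] at this
  have h2 : algebraMap 𝒪 (S ⧸ I 1) c = 0 := by
    rw [← RingHom.mem_ker, h.ker_algebraMap_one]
    exact (mem_maximalIdeal c).mpr hcu
  rw [h2] at h1
  have : Nontrivial (S ⧸ I 1) := Ideal.Quotient.nontrivial_iff.mpr h.max.ne_top
  exact not_isUnit_zero h1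

lemma LimitHyp.residue_surjective (h : LimitHyp 𝒪 I s) :
    Function.Surjective (IsLocalRing.residue h.Ring ∘ algebraMap 𝒪 h.Ring) := by
  intro y
  obtain ⟨x, rfl⟩ := IsLocalRing.residue_surjective y
  obtain ⟨c, hc⟩ := h.res_surj (h.π 1 x)
  refine ⟨c, ?_⟩
  simp only [Function.comp_apply]
  rw [← sub_eq_zero, ← map_sub, IsLocalRing.residue_eq_zero_iff]
  have : algebraMap 𝒪 h.Ring c - x ∈ RingHom.ker (h.π 1) := by
    rw [RingHom.mem_ker, map_sub, AlgHom.commutes, hc, sub_self]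
  rwa [h.ker_π, pow_one] at this

lemma LimitHyp.exists_unique_lift (h : LimitHyp 𝒪 I s) (y : ∀ n, S ⧸ I n)
    (hy : ∀ n, Ideal.Quotient.factor (h.anti n) (y (n + 1)) = y n) :
    ∃! x : h.Ring, ∀ n, h.π n x = y n := by
  have hy' : ∀ m n (hmn : m ≤ n), Ideal.Quotient.factor (h.antitone hmn) (y n) = y m := by
    intro m n hmn
    induction n, hmn using Nat.le_induction with
    | base =>
      obtain ⟨a, ha⟩ := Ideal.Quotient.mk_surjective (y m)
      rw [← ha, Ideal.Quotient.factor_mk]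
    | succ k hk ih =>
      rw [← ih, ← hy k]
      obtain ⟨a, ha⟩ := Ideal.Quotient.mk_surjective (y (k + 1))
      rw [← ha, Ideal.Quotient.factor_mk, Ideal.Quotient.factor_mk, Ideal.Quotient.factor_mk]
  choose z hz using fun n => h.π_surjective n (y n)
  obtain ⟨L, hL⟩ := IsPrecomplete.prec' (I := maximalIdeal h.Ring) z (by
    intro m n hmn
    rw [SModEq.sub_mem, smul_eq_mul, Ideal.mul_top, ← h.ker_π, RingHom.mem_ker, map_sub, hz,
      ← h.π_factor hmn, hz, hy' m n hmn, sub_self])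
  have hL' : ∀ n, h.π n L = y n := by
    intro n
    have := hL n
    rw [SModEq.sub_mem, smul_eq_mul, Ideal.mul_top, ← h.ker_π, RingHom.mem_ker, map_sub, hz,
      sub_eq_zero] at this
    exact this.symm
  refine ⟨L, hL', fun x hx => ?_⟩
  have : x - L = 0 := by
    apply IsHausdorff.haus' (I := maximalIdeal h.Ring)
    intro n
    rw [SModEq.sub_mem, sub_zero, smul_eq_mul, Ideal.mul_top, ← h.ker_π, RingHom.mem_ker, map_sub,
      hx n, hL' n, sub_self]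
  exact sub_eq_zero.mp this

end Complete

end LimitRing

end Fermat.Agent.S53.Lim
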