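import Mathlib
import Fermat.Agent.S53.Lim.Tower

set_option linter.unusedSectionVars false

namespace Fermat.Agent.S53.Lim

open IsLocalRing

section Gen

variable (𝒪 : Type) [CommRing 𝒪]
variable {S : Type} [CommRing S] [Algebra 𝒪 S]

/-- one step of the successive approximation: an element of `M ^ j` is a polynomial in the `s i`
up to `W ⊔ M ^ (j + 1)` -/
lemma exists_aeval_sub_mem_step (M W : Ideal S) {d : ℕ} (s : Fin d → S)
    (hres : Function.Surjective (algebraMap 𝒪 (S ⧸ M)))
    (hs : ∀ i, s i ∈ M) (hgen : M ≤ W ⊔ Ideal.span (Set.range s)) (j : ℕ) :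
    ∀ x ∈ M ^ j, ∃ p : MvPolynomial (Fin d) 𝒪,
      x - MvPolynomial.aeval s p ∈ W ⊔ M ^ (j + 1) := by
  induction j with
  | zero =>
    intro x _
    obtain ⟨c, hc⟩ := hres (Ideal.Quotient.mk M x)
    refine ⟨MvPolynomial.C c, ?_⟩
    rw [MvPolynomial.aeval_C]
    apply Ideal.mem_sup_right
    rw [zero_add, pow_one, ← Ideal.Quotient.eq]
    exact hc.symm
  | succ j ih =>
    intro x hx
    rw [pow_succ] at hx
    have key : ∀ y ∈ Ideal.span (Set.range s), ∀ a ∈ M ^ j,
        ∃ p : MvPolynomial (Fin d) 𝒪,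
          a * y - MvPolynomial.aeval s p ∈ W ⊔ M ^ (j + 1 + 1) := by
      intro y hy
      refine Submodule.span_induction ?_ ?_ ?_ ?_ hy
      · rintro _ ⟨i, rfl⟩ a ha
        obtain ⟨p, hp⟩ := ih a ha
        refine ⟨p * MvPolynomial.X i, ?_⟩
        have : a * s i - MvPolynomial.aeval s (p * MvPolynomial.X i) =
            (a - MvPolynomial.aeval s p) * s i := by
          rw [map_mul, MvPolynomial.aeval_X]; ring
        rw [this]
        obtain ⟨u, hu, v, hv, huv⟩ := Submodule.mem_sup.mp hp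
        rw [← huv, add_mul]
        refine Ideal.add_mem _ (Ideal.mem_sup_left (Ideal.mul_mem_right _ _ hu))
          (Ideal.mem_sup_right ?_)
        rw [pow_succ M (j + 1)]
        exact Ideal.mul_mem_mul hv (hs i)
      · intro a _
        exact ⟨0, by simp⟩
      · intro y z _ _ ihy ihz a ha
        obtain ⟨p, hp⟩ := ihy a ha
        obtain ⟨q, hq⟩ := ihz a ha
        refine ⟨p + q, ?_⟩
        have : a * (y + z) - MvPolynomial.aeval s (p + q) =
            (a * y - MvPolynomial.aeval s p) + (a * z - MvPolynomial.aeval s q) := by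
          rw [map_add]; ring
        rw [this]
        exact Ideal.add_mem _ hp hq
      · intro r y _ ihy a ha
        obtain ⟨p, hp⟩ := ihy (a * r) (Ideal.mul_mem_right _ _ ha)
        refine ⟨p, ?_⟩
        rw [smul_eq_mul, ← mul_assoc]
        exact hp
    refine Submodule.mul_induction_on hx ?_ ?_
    · intro a ha b hb
      obtain ⟨w, hw, y, hy, rfl⟩ := Submodule.mem_sup.mp (hgen hb)
      obtain ⟨p, hp⟩ := key y hy a ha
      refine ⟨p, ?_⟩
      have : a * (w + y) - MvPolynomial.aeval s p =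
          a * w + (a * y - MvPolynomial.aeval s p) := by ring
      rw [this]
      exact Ideal.add_mem _ (Ideal.mem_sup_left (Ideal.mul_mem_left _ _ hw)) hp
    · rintro x y ⟨p, hp⟩ ⟨q, hq⟩
      refine ⟨p + q, ?_⟩
      have : x + y - MvPolynomial.aeval s (p + q) =
          (x - MvPolynomial.aeval s p) + (y - MvPolynomial.aeval s q) := by
        rw [map_add]; ring
      rw [this]
      exact Ideal.add_mem _ hp hq

/-- successive approximation: every element is a polynomial in the `s i` up to `W ⊔ M ^ j` -/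
lemma exists_aeval_sub_mem (M W : Ideal S) {d : ℕ} (s : Fin d → S)
    (hres : Function.Surjective (algebraMap 𝒪 (S ⧸ M)))
    (hs : ∀ i, s i ∈ M) (hgen : M ≤ W ⊔ Ideal.span (Set.range s)) (j : ℕ) :
    ∀ x : S, ∃ p : MvPolynomial (Fin d) 𝒪, x - MvPolynomial.aeval s p ∈ W ⊔ M ^ j := by
  induction j with
  | zero =>
    intro x
    exact ⟨0, by simp⟩
  | succ j ih =>
    intro x
    obtain ⟨p, hp⟩ := ih x
    obtain ⟨u, hu, v, hv, huv⟩ := Submodule.mem_sup.mp hp
    obtain ⟨q, hq⟩ := exists_aeval_sub_mem_step 𝒪 M W s hres hs hgen j v hv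
    refine ⟨p + q, ?_⟩
    have : x - MvPolynomial.aeval s (p + q) = u + (v - MvPolynomial.aeval s q) := by
      rw [map_add]; linear_combination -huv
    rw [this]
    exact Ideal.add_mem _ (Ideal.mem_sup_left hu) hq

/-- Nakayama-type criterion for the surjectivity hypothesis of `LimitHyp`. -/
theorem polyEv_surjective_of_gen (I : ℕ → Ideal S) {d : ℕ} (s : Fin d → S)
    (hres : Function.Surjective (algebraMap 𝒪 (S ⧸ I 1)))
    (hpow : ∀ n, I 1 ^ n ≤ I n) (hs : ∀ i, s i ∈ I 1)
    (hgen : ∀ n, I 1 ≤ I n ⊔ Ideal.span (Set.range s)) (n : ℕ) :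
    Function.Surjective (polyEv 𝒪 I s n) := by
  intro y
  obtain ⟨x, rfl⟩ := Ideal.Quotient.mk_surjective y
  obtain ⟨p, hp⟩ := exists_aeval_sub_mem 𝒪 (I 1) (I n) s hres hs (hgen n) n x
  refine ⟨p, ?_⟩
  simp only [polyEv, AlgHom.coe_comp, Function.comp_apply, Ideal.Quotient.mkₐ_eq_mk]
  rw [eq_comm, Ideal.Quotient.eq]
  rwa [sup_eq_left.mpr (hpow n)] at hp

end Gen

end Fermat.Agent.S53.Lim
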