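import Mathlib
import Fermat.Agent.S53.Lim.Gen

set_option linter.unusedSectionVars false

namespace Fermat.Agent.S53.Lim

open IsLocalRing

section Level

variable (𝒪 : Type) [CommRing 𝒪]
variable {S : Type} [CommRing S] [Algebra 𝒪 S]
variable (M : Ideal S) (I : ℕ → Ideal S) {d : ℕ} (s : Fin d → S)

/-- index shift: level `n` corresponds to index `n + 1` of `LimitHyp` -/
def shiftIdeal : ℕ → Ideal S
  | 0 => ⊤
  | n + 1 => I n

/-- Hypotheses on a tower of level ideals `I n` (level `n` means `M ^ (n + 1) ≤ I n ≤ M`). -/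
structure LevelHyp : Prop where
  max : M.IsMaximal
  res_surj : Function.Surjective (algebraMap 𝒪 (S ⧸ M))
  pow_le : ∀ n, M ^ (n + 1) ≤ I n
  le_zero : I 0 ≤ M
  mono : ∀ n, I (n + 1) ≤ I n
  le_sup : ∀ n, I n ≤ I (n + 1) ⊔ M ^ (n + 1)
  s_mem : ∀ i, s i ∈ M
  gen : ∀ n, M ≤ I n ⊔ Ideal.span (Set.range s)

variable {𝒪 M I s}

lemma LevelHyp.I_zero (h : LevelHyp 𝒪 M I s) : I 0 = M :=
  le_antisymm h.le_zero (by simpa using h.pow_le 0)

lemma LevelHyp.limitHyp (h : LevelHyp 𝒪 M I s) : LimitHyp 𝒪 (shiftIdeal I) s := by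
  have h1 : shiftIdeal I 1 = M := h.I_zero
  have hres : Function.Surjective (algebraMap 𝒪 (S ⧸ shiftIdeal I 1)) := by
    intro y
    obtain ⟨x, rfl⟩ := Ideal.Quotient.mk_surjective y
    obtain ⟨c, hc⟩ := h.res_surj (Ideal.Quotient.mk M x)
    refine ⟨c, ?_⟩
    have hc' : Ideal.Quotient.mk M (algebraMap 𝒪 S c) = Ideal.Quotient.mk M x := hc
    rw [Ideal.Quotient.eq] at hc'
    change Ideal.Quotient.mk (shiftIdeal I 1) (algebraMap 𝒪 S c) = _
    rw [Ideal.Quotient.eq, h1]
    exact hc'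
  have hpow : ∀ n, shiftIdeal I 1 ^ n ≤ shiftIdeal I n := by
    intro n
    cases n with
    | zero => exact le_top
    | succ m => rw [h1]; exact h.pow_le m
  have hs : ∀ i, s i ∈ shiftIdeal I 1 := fun i => h1 ▸ h.s_mem i
  refine ⟨h1 ▸ h.max, hres, hpow, ?_, ?_, hs, ?_⟩
  · intro n
    cases n with
    | zero => exact le_top
    | succ m => exact h.mono m
  · intro n
    cases n with
    | zero => rw [pow_zero, Ideal.one_eq_top, sup_top_eq]; exact le_top
    | succ m => rw [h1]; exact h.le_sup m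
  · refine polyEv_surjective_of_gen 𝒪 (shiftIdeal I) s hres hpow hs ?_
    intro n
    cases n with
    | zero => exact le_top.trans (le_sup_left (a := (⊤ : Ideal S)))
    | succ m => rw [h1]; exact h.gen m

section Complete

variable [IsLocalRing 𝒪] [IsNoetherianRing 𝒪] [IsAdicComplete (maximalIdeal 𝒪) 𝒪]

/-- the limit ring of a tower of level ideals: a quotient of a power series ring over `𝒪` -/
abbrev LevelHyp.Ring (h : LevelHyp 𝒪 M I s) : Type := h.limitHyp.Ring

/-- the projection of the limit ring onto level `n` -/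
noncomputable def LevelHyp.proj (h : LevelHyp 𝒪 M I s) (n : ℕ) : h.Ring →ₐ[𝒪] S ⧸ I n :=
  h.limitHyp.π (n + 1)

lemma LevelHyp.proj_surjective (h : LevelHyp 𝒪 M I s) (n : ℕ) :
    Function.Surjective (h.proj n) :=
  h.limitHyp.π_surjective (n + 1)

lemma LevelHyp.ker_proj (h : LevelHyp 𝒪 M I s) (n : ℕ) :
    RingHom.ker (h.proj n) = maximalIdeal h.Ring ^ (n + 1) :=
  h.limitHyp.ker_π (n + 1)

lemma LevelHyp.proj_eq_zero_iff (h : LevelHyp 𝒪 M I s) (n : ℕ) (x : h.Ring) :
    h.proj n x = 0 ↔ x ∈ maximalIdeal h.Ring ^ (n + 1) := by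
  rw [← h.ker_proj, RingHom.mem_ker]

lemma LevelHyp.proj_factor (h : LevelHyp 𝒪 M I s) (n : ℕ) (x : h.Ring) :
    Ideal.Quotient.factor (h.mono n) (h.proj (n + 1) x) = h.proj n x :=
  h.limitHyp.π_factor (Nat.le_succ (n + 1)) x

lemma LevelHyp.residue_surjective (h : LevelHyp 𝒪 M I s) :
    Function.Surjective (IsLocalRing.residue h.Ring ∘ algebraMap 𝒪 h.Ring) :=
  h.limitHyp.residue_surjective

/-- the limit ring is the inverse limit of the levels -/
lemma LevelHyp.exists_unique_lift (h : LevelHyp 𝒪 M I s) (y : ∀ n, S ⧸ I n)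
    (hy : ∀ n, Ideal.Quotient.factor (h.mono n) (y (n + 1)) = y n) :
    ∃! x : h.Ring, ∀ n, h.proj n x = y n := by
  let y' : ∀ n, S ⧸ shiftIdeal I n := fun n =>
    match n with
    | 0 => 0
    | m + 1 => y m
  have hy' : ∀ n, Ideal.Quotient.factor (h.limitHyp.anti n) (y' (n + 1)) = y' n := by
    intro n
    cases n with
    | zero => exact h.limitHyp.evPS_zero_eq _
    | succ m => exact hy m
  obtain ⟨x, hx, hux⟩ := h.limitHyp.exists_unique_lift y' hy'
  refine ⟨x, fun n => hx (n + 1), fun z hz => hux z ?_⟩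
  intro n
  cases n with
  | zero => exact h.limitHyp.evPS_zero_eq _
  | succ m => exact hz m

lemma LevelHyp.ext_proj (h : LevelHyp 𝒪 M I s) {x y : h.Ring}
    (hxy : ∀ n, h.proj n x = h.proj n y) : x = y := by
  have hc : ∀ n, Ideal.Quotient.factor (h.mono n) (h.proj (n + 1) y) = h.proj n y :=
    fun n => h.proj_factor n y
  obtain ⟨z, _, hz⟩ := h.exists_unique_lift (fun n => h.proj n y) hc
  rw [hz x hxy, hz y (fun _ => rfl)]

end Complete

end Level

end Fermat.Agent.S53.Lim
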